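import Mathlib

set_option autoImplicit false
set_option linter.unusedSectionVars false
set_option linter.unusedVariables false

namespace Fermat.Agent.S11

open NumberField IsCyclotomicExtension IsCyclotomicExtension.Rat Polynomial Finset

section Basics

variable {p : ℕ} [hp : Fact p.Prime] {K : Type} [Field K] [NumberField K]
  [hcycl : IsCyclotomicExtension {p} ℚ K] {ζ : K} (hζ : IsPrimitiveRoot ζ p)

local notation3 "𝔩" => (hζ.toInteger - 1)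
local notation3 "η" => hζ.toInteger

include hcycl in
/-- every algebraic integer is congruent to a rational integer mod `ζ - 1`. -/
theorem exists_int_lam_dvd_sub (α : 𝓞 K) : ∃ n : ℤ, 𝔩 ∣ α - (n : 𝓞 K) := by
  obtain ⟨f, hf⟩ := hζ.integralPowerBasis.exists_eq_aeval' α
  rw [hζ.integralPowerBasis_gen] at hf
  refine ⟨f.eval 1, ?_⟩
  have h1 : (aeval (1 : 𝓞 K) f) = ((f.eval 1 : ℤ) : 𝓞 K) := by
    rw [Polynomial.aeval_def, Polynomial.eval₂_at_one]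
    simp
  rw [hf, ← h1, Polynomial.aeval_def, Polynomial.aeval_def, Polynomial.eval₂_eq_eval_map,
    Polynomial.eval₂_eq_eval_map]
  exact Polynomial.sub_dvd_eval_sub _ _ _

include hcycl in
theorem natCast_dvd_lam_pow : (p : 𝓞 K) ∣ 𝔩 ^ p :=
  (associated_zeta_sub_one_pow_prime p hζ).symm.dvd.trans (pow_dvd_pow _ (Nat.sub_le p 1))

include hcycl in
/-- `α ≡ n mod (ζ - 1)` implies `α ^ p ≡ n ^ p mod p`. -/
theorem natCast_dvd_pow_sub_pow {α : 𝓞 K} {n : ℤ} (h : 𝔩 ∣ α - (n : 𝓞 K)) :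
    (p : 𝓞 K) ∣ α ^ p - (n : 𝓞 K) ^ p := by
  have hprim := hζ.toInteger_isPrimitiveRoot
  rw [hprim.pow_sub_pow_eq_prod_sub_mul α n hp.out.pos]
  refine (natCast_dvd_lam_pow hζ).trans ?_
  have hcard : (nthRootsFinset p (1 : 𝓞 K)).card = p := hprim.card_nthRootsFinset
  calc 𝔩 ^ p = ∏ _μ ∈ nthRootsFinset p (1 : 𝓞 K), 𝔩 := by rw [prod_const, hcard]
    _ ∣ _ := Finset.prod_dvd_prod_of_dvd _ _ (fun μ hμ => ?_)
  have h1 : 𝔩 ∣ μ - 1 := hprim.sub_one_dvd_sub hp.out hμ (one_mem_nthRootsFinset hp.out.pos)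
  have : α - μ * n = (α - n) - (μ - 1) * n := by ring
  rw [this]
  exact dvd_sub h (h1.mul_right _)


include hcycl in
/-- The main descent step of Kummer's argument for the second case, in a PID, assuming
Kummer's lemma. -/
theorem descent_aux [IsPrincipalIdealRing (𝓞 K)] (hp2 : p ≠ 2)
    (hkummer : ∀ u : (𝓞 K)ˣ, (∃ n : ℤ, (p : 𝓞 K) ∣ (u : 𝓞 K) - n) → ∃ v : (𝓞 K)ˣ, u = v ^ p)
    {m : ℕ} (hm : 1 ≤ m) {x y z : 𝓞 K} {ε : (𝓞 K)ˣ} (hx : ¬ 𝔩 ∣ x) (hy : ¬ 𝔩 ∣ y)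
    (hz : ¬ 𝔩 ∣ z) (hxy : IsCoprime x y)
    (h : x ^ p + y ^ p = ε * 𝔩 ^ (p * m) * z ^ p) (h2 : 𝔩 ^ 2 ∣ x + y) :
    2 ≤ m ∧ ∃ (x' y' z' : 𝓞 K) (ε' : (𝓞 K)ˣ), ¬ 𝔩 ∣ x' ∧ ¬ 𝔩 ∣ y' ∧ ¬ 𝔩 ∣ z' ∧
      IsCoprime x' y' ∧ x' ^ p + y' ^ p = ε' * 𝔩 ^ (p * (m - 1)) * z' ^ p := by
  classical
  have hprim := hζ.toInteger_isPrimitiveRoot
  have hl : Prime 𝔩 := hζ.zeta_sub_one_prime'
  have hl0 : 𝔩 ≠ 0 := hl.ne_zero
  have hppos : 0 < p := hp.out.pos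
  have hp2le : 2 ≤ p := hp.out.two_le
  set s := nthRootsFinset p (1 : 𝓞 K) with hs
  have hcard : s.card = p := hprim.card_nthRootsFinset
  have h1s : (1 : 𝓞 K) ∈ s := one_mem_nthRootsFinset hppos
  have hodd : Odd p := hp.out.odd_of_ne_two hp2
  have hassoc : ∀ μ ∈ s, ∀ ν ∈ s, μ ≠ ν → ∃ u : (𝓞 K)ˣ, μ - ν = u * 𝔩 := by
    intro μ hμ ν hν hne
    obtain ⟨u, hu⟩ :=
      hprim.nthRootsFinset_pairwise_associated_sub_one_sub_of_prime hp.out hμ hν hne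
    exact ⟨u, by rw [← hu]; ring⟩
  have hprod : ∏ μ ∈ s, (x + μ * y) = ε * 𝔩 ^ (p * m) * z ^ p := by
    rw [← h, hprim.pow_add_pow_eq_prod_add_mul x y hodd]
  -- the quotients `w μ = (x + μ y) / 𝔩` for `μ ≠ 1`
  have hw : ∀ μ : 𝓞 K, ∃ w : 𝓞 K, μ ∈ s.erase 1 → (x + μ * y = 𝔩 * w ∧ ¬ 𝔩 ∣ w) := by
    intro μ
    by_cases hμ : μ ∈ s.erase 1
    · obtain ⟨hne, hμs⟩ := Finset.mem_erase.mp hμ
      obtain ⟨u, hu⟩ := hassoc μ hμs 1 h1s hne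
      obtain ⟨t, ht⟩ := h2
      refine ⟨𝔩 * t + u * y, fun _ => ⟨?_, ?_⟩⟩
      · have : x + μ * y = (x + y) + (μ - 1) * y := by ring
        rw [this, ht, hu]; ring
      · intro hdiv
        have : 𝔩 ∣ (u : 𝓞 K) * y := (dvd_add_right (dvd_mul_right 𝔩 t)).mp hdiv
        rcases hl.dvd_or_dvd this with h' | h'
        · exact hl.not_isUnit (isUnit_of_dvd_unit h' u.isUnit)
        · exact hy h'
    · exact ⟨0, fun h => absurd h hμ⟩
  choose w hw using hw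
  have hprod2 : ∏ μ ∈ s, (x + μ * y) = (x + y) * (𝔩 ^ (p - 1) * ∏ μ ∈ s.erase 1, w μ) := by
    rw [← Finset.mul_prod_erase s _ h1s, one_mul]
    congr 1
    rw [Finset.prod_congr rfl (fun μ hμ => (hw μ hμ).1), Finset.prod_mul_distrib,
      Finset.prod_const, Finset.card_erase_of_mem h1s, hcard]
  set W := ∏ μ ∈ s.erase 1, w μ with hW
  have hWl : ¬ 𝔩 ∣ W := by
    rw [hW, hl.dvd_finsetProd_iff]
    push Not
    exact fun μ hμ => (hw μ hμ).2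
  have hpm : p * m = (p * m - (p - 1)) + (p - 1) := by
    have : p - 1 ≤ p * m := (Nat.sub_le p 1).trans (Nat.le_mul_of_pos_right p hm)
    omega
  obtain ⟨k, hk⟩ : ∃ k, k = p * m - (p - 1) := ⟨_, rfl⟩
  rw [← hk] at hpm
  have hkdvd : 𝔩 ^ k ∣ x + y := by
    have h3 : 𝔩 ^ (p * m) ∣ ((x + y) * 𝔩 ^ (p - 1)) * W := by
      rw [mul_assoc, ← hprod2, hprod]
      exact Dvd.intro _ (by ring : 𝔩 ^ (p * m) * (ε * z ^ p) = ε * 𝔩 ^ (p * m) * z ^ p)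
    have h4 := hl.pow_dvd_of_dvd_mul_right _ hWl h3
    rw [hpm, pow_add] at h4
    exact (mul_dvd_mul_iff_right (pow_ne_zero _ hl0)).mp h4
  obtain ⟨w0, hw0⟩ := hkdvd
  have hw0W : w0 * W = ε * z ^ p := by
    have h5 : 𝔩 ^ (p * m) * (w0 * W) = 𝔩 ^ (p * m) * (ε * z ^ p) := by
      calc 𝔩 ^ (p * m) * (w0 * W) = (x + y) * (𝔩 ^ (p - 1) * W) := by
            rw [hw0, hpm, pow_add]; ring
        _ = _ := by rw [← hprod2, hprod]; ring
    exact mul_left_cancel₀ (pow_ne_zero _ hl0) h5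
  have hw0l : ¬ 𝔩 ∣ w0 := by
    intro hdiv
    have : 𝔩 ∣ (ε : 𝓞 K) * z ^ p := hw0W ▸ hdiv.mul_right W
    rcases hl.dvd_or_dvd this with h' | h'
    · exact hl.not_isUnit (isUnit_of_dvd_unit h' ε.isUnit)
    · exact hz (hl.dvd_of_dvd_pow h')
  have hk2 : 2 ≤ k := by
    by_contra hlt
    push Not at hlt
    rw [hw0] at h2
    interval_cases k
    · rw [pow_zero, one_mul] at h2
      exact hw0l ((dvd_pow_self 𝔩 two_ne_zero).trans h2)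
    · rw [pow_one, pow_two] at h2
      exact hw0l ((mul_dvd_mul_iff_left hl0).mp h2)
  have hm2 : 2 ≤ m := by
    by_contra hlt
    have hm1 : m = 1 := by omega
    subst hm1
    omega
  refine ⟨hm2, ?_⟩
  have hk' : k = p * (m - 1) + 1 := by
    have : p * m = p * (m - 1) + p := by
      conv_lhs => rw [show m = (m - 1) + 1 by omega]
      ring
    omega
  -- the two special roots `η` and `η⁻¹`
  have hηs : η ∈ s := hprim.mem_nthRootsFinset hppos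
  have hη1 : η ≠ 1 := hprim.ne_one hp.out.one_lt
  obtain ⟨ηb, hηb⟩ : ∃ ηb : 𝓞 K, ηb = η ^ (p - 1) := ⟨_, rfl⟩
  have hηηb : η * ηb = 1 := by
    rw [hηb, ← pow_succ', Nat.sub_add_cancel hppos, hprim.pow_eq_one]
  have hηbs : ηb ∈ s := by
    rw [hs, mem_nthRootsFinset hppos, hηb, ← pow_mul, mul_comm, pow_mul, hprim.pow_eq_one,
      one_pow]
  have hηb1 : ηb ≠ 1 := fun h => hη1 (by rw [h, mul_one] at hηηb; exact hηηb)
  have hηne : η ≠ ηb := by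
    intro h
    have h' : η ^ 2 = 1 := by rw [sq]; nth_rewrite 2 [h]; exact hηηb
    have := Nat.le_of_dvd two_pos (hprim.dvd_of_pow_eq_one 2 h')
    omega
  have hηe : η ∈ s.erase 1 := Finset.mem_erase.mpr ⟨hη1, hηs⟩
  have hηbe : ηb ∈ s.erase 1 := Finset.mem_erase.mpr ⟨hηb1, hηbs⟩
  -- coprimality
  obtain ⟨a, b, hab⟩ := hxy
  have hcop : ∀ μ ∈ s.erase 1, ∀ ν ∈ s.erase 1, μ ≠ ν → IsCoprime (w μ) (w ν) := by
    intro μ hμ ν hν hne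
    obtain ⟨u, hu⟩ := hassoc μ (Finset.mem_of_mem_erase hμ) ν (Finset.mem_of_mem_erase hν) hne
    have e1 := (hw μ hμ).1
    have e2 := (hw ν hν).1
    have e3 : w μ - w ν = u * y := by
      apply mul_left_cancel₀ hl0
      calc 𝔩 * (w μ - w ν) = (x + μ * y) - (x + ν * y) := by rw [e1, e2]; ring
        _ = (μ - ν) * y := by ring
        _ = _ := by rw [hu]; ring
    have e4 : ν * w μ - μ * w ν = - (u * x) := by
      apply mul_left_cancel₀ hl0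
      calc 𝔩 * (ν * w μ - μ * w ν) = ν * (x + μ * y) - μ * (x + ν * y) := by rw [e1, e2]; ring
        _ = -((μ - ν) * x) := by ring
        _ = _ := by rw [hu]; ring
    have hu1 : (u : 𝓞 K) * ↑u⁻¹ = 1 := Units.mul_inv u
    refine ⟨(-a * ν + b) * ↑u⁻¹, (a * μ - b) * ↑u⁻¹, ?_⟩
    linear_combination (-a * ↑u⁻¹) * e4 + (b * ↑u⁻¹) * e3 + (a * x + b * y) * hu1 + hab
  have hcop0 : ∀ μ ∈ s.erase 1, IsCoprime (w μ) w0 := by
    intro μ hμ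
    obtain ⟨hne, hμs⟩ := Finset.mem_erase.mp hμ
    obtain ⟨u, hu⟩ := hassoc μ hμs 1 h1s hne
    have e1 := (hw μ hμ).1
    have e3 : w μ - 𝔩 ^ (p * (m - 1)) * w0 = u * y := by
      apply mul_left_cancel₀ hl0
      calc 𝔩 * (w μ - 𝔩 ^ (p * (m - 1)) * w0) = (x + μ * y) - (x + y) := by
            rw [e1, hw0, hk']; ring
        _ = (μ - 1) * y := by ring
        _ = _ := by rw [hu]; ring
    have e4 : w μ - μ * (𝔩 ^ (p * (m - 1)) * w0) = -(u * x) := by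
      apply mul_left_cancel₀ hl0
      calc 𝔩 * (w μ - μ * (𝔩 ^ (p * (m - 1)) * w0)) = (x + μ * y) - μ * (x + y) := by
            rw [e1, hw0, hk']; ring
        _ = -((μ - 1) * x) := by ring
        _ = _ := by rw [hu]; ring
    have hu1 : (u : 𝓞 K) * ↑u⁻¹ = 1 := Units.mul_inv u
    have : IsCoprime (w μ) (𝔩 ^ (p * (m - 1)) * w0) := by
      refine ⟨(-a + b) * ↑u⁻¹, (a * μ - b) * ↑u⁻¹, ?_⟩
      linear_combination (-a * ↑u⁻¹) * e4 + (b * ↑u⁻¹) * e3 + (a * x + b * y) * hu1 + hab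
    exact this.of_mul_right_right
  -- `p`-th powers
  have hassocz : ∀ t : 𝓞 K, t = ε * z ^ p → Associated (z ^ p) t := by
    intro t ht
    rw [ht]
    exact (associated_unit_mul_left _ _ ε.isUnit).symm
  have hc0 : IsCoprime w0 W := IsCoprime.prod_right (fun μ hμ => (hcop0 μ hμ).symm)
  obtain ⟨ρ0, u0, hρ0⟩ := exists_associated_pow_of_associated_pow_mul hc0 (k := p) (c := z)
    (hassocz _ hw0W)
  have hWη : w η * ∏ μ ∈ (s.erase 1).erase η, w μ = W := Finset.mul_prod_erase _ _ hηe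
  have hc1 : IsCoprime (w η) (w0 * ∏ μ ∈ (s.erase 1).erase η, w μ) :=
    IsCoprime.mul_right (hcop0 η hηe) (IsCoprime.prod_right fun μ hμ =>
      hcop η hηe μ (Finset.mem_of_mem_erase hμ) (Finset.ne_of_mem_erase hμ).symm)
  obtain ⟨ρ1, u1, hρ1⟩ := exists_associated_pow_of_associated_pow_mul hc1 (k := p) (c := z)
    (hassocz _ (by rw [← hw0W, ← hWη]; ring))
  have hWηb : w ηb * ∏ μ ∈ (s.erase 1).erase ηb, w μ = W := Finset.mul_prod_erase _ _ hηbe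
  have hcb : IsCoprime (w ηb) (w0 * ∏ μ ∈ (s.erase 1).erase ηb, w μ) :=
    IsCoprime.mul_right (hcop0 ηb hηbe) (IsCoprime.prod_right fun μ hμ =>
      hcop ηb hηbe μ (Finset.mem_of_mem_erase hμ) (Finset.ne_of_mem_erase hμ).symm)
  obtain ⟨ρb, ub, hρb⟩ := exists_associated_pow_of_associated_pow_mul hcb (k := p) (c := z)
    (hassocz _ (by rw [← hw0W, ← hWηb]; ring))
  -- `¬ 𝔩 ∣ ρ`
  have hρ0l : ¬ 𝔩 ∣ ρ0 := fun hd =>
    hw0l (hρ0 ▸ (hd.trans (dvd_pow_self ρ0 hppos.ne')).mul_right _)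
  have hρ1l : ¬ 𝔩 ∣ ρ1 := fun hd =>
    (hw η hηe).2 (hρ1 ▸ (hd.trans (dvd_pow_self ρ1 hppos.ne')).mul_right _)
  have hρbl : ¬ 𝔩 ∣ ρb := fun hd =>
    (hw ηb hηbe).2 (hρb ▸ (hd.trans (dvd_pow_self ρb hppos.ne')).mul_right _)
  -- the linear relation
  have hlin : η * w ηb + w η = (1 + η) * (𝔩 ^ (p * (m - 1)) * w0) := by
    apply mul_left_cancel₀ hl0
    calc 𝔩 * (η * w ηb + w η) = η * (x + ηb * y) + (x + η * y) := by
          rw [(hw ηb hηbe).1, (hw η hηe).1]; ring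
      _ = (1 + η) * (x + y) + (η * ηb - 1) * y := by ring
      _ = (1 + η) * (x + y) := by rw [hηηb]; ring
      _ = _ := by rw [hw0, hk']; ring
  -- units
  have hunit1 : IsUnit (1 + η) := by
    have := hprim.geom_sum_isUnit hp2le (j := 2)
      ((Nat.coprime_primes Nat.prime_two hp.out).mpr (Ne.symm hp2))
    simpa [Finset.sum_range_succ] using this
  obtain ⟨e1, he1⟩ := hunit1
  obtain ⟨eη, heη⟩ := hprim.isUnit hppos.ne'
  -- θ = η * ub / u1,  ε' = (1 + η) * u0 / u1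
  obtain ⟨θ, hθ⟩ : ∃ θ : (𝓞 K)ˣ, θ = eη * ub * u1⁻¹ := ⟨_, rfl⟩
  obtain ⟨ε', hε'⟩ : ∃ ε' : (𝓞 K)ˣ, ε' = e1 * u0 * u1⁻¹ := ⟨_, rfl⟩
  have hu1 : (u1 : 𝓞 K) * ↑u1⁻¹ = 1 := Units.mul_inv u1
  have hmain : ρ1 ^ p + θ * ρb ^ p = ε' * 𝔩 ^ (p * (m - 1)) * ρ0 ^ p := by
    rw [hθ, hε']
    push_cast
    rw [heη, he1]
    rw [← hρb, ← hρ1, ← hρ0] at hlin
    linear_combination (↑u1⁻¹ : 𝓞 K) * hlin - ρ1 ^ p * hu1
  -- `θ` is congruent to an integer mod `p`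
  obtain ⟨n1, hn1⟩ := exists_int_lam_dvd_sub hζ ρ1
  obtain ⟨nb, hnb⟩ := exists_int_lam_dvd_sub hζ ρb
  have hp1 := natCast_dvd_pow_sub_pow hζ hn1
  have hpb := natCast_dvd_pow_sub_pow hζ hnb
  have hnbp : ¬ (p : ℤ) ∣ nb := by
    intro hd
    apply hρbl
    have h' : 𝔩 ∣ (nb : 𝓞 K) := (zeta_sub_one_dvd_intCast_iff' p hζ).mpr hd
    have := dvd_add hnb h'
    simpa using this
  have hcopnb : IsCoprime (nb ^ p) (p : ℤ) := by
    have : IsCoprime (p : ℤ) nb :=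
      (Nat.prime_iff_prime_int.mp hp.out).coprime_iff_not_dvd.mpr hnbp
    exact this.symm.pow_left
  obtain ⟨c, d, hcd⟩ := hcopnb
  have hpL : (p : 𝓞 K) ∣ 𝔩 ^ (p * (m - 1)) :=
    (natCast_dvd_lam_pow hζ).trans (pow_dvd_pow _ (Nat.le_mul_of_pos_right p (by omega)))
  have hθint : ∃ n : ℤ, (p : 𝓞 K) ∣ (θ : 𝓞 K) - n := by
    refine ⟨-c * n1 ^ p, ?_⟩
    have hcd' : (c : 𝓞 K) * (nb : 𝓞 K) ^ p + d * p = 1 := by
      exact_mod_cast congrArg (Int.cast : ℤ → 𝓞 K) hcd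
    obtain ⟨q1, hq1⟩ := hp1
    obtain ⟨qb, hqb⟩ := hpb
    obtain ⟨qL, hqL⟩ := hpL
    refine ⟨θ * d + c * (ε' * qL * ρ0 ^ p - q1 - θ * qb), ?_⟩
    push_cast
    linear_combination (-(θ : 𝓞 K)) * hcd' - c * hq1 - c * θ * hqb + c * hmain
      + c * ε' * ρ0 ^ p * hqL
  obtain ⟨v, hv⟩ := hkummer θ hθint
  refine ⟨ρ1, v * ρb, ρ0, ε', hρ1l, ?_, hρ0l, ?_, ?_⟩
  · intro hd
    rcases hl.dvd_or_dvd hd with h' | h'
    · exact hl.not_isUnit (isUnit_of_dvd_unit h' v.isUnit)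
    · exact hρbl h'
  · have h12 : IsCoprime (w η) (w ηb) := hcop η hηe ηb hηbe hηne
    rw [← hρ1, ← hρb] at h12
    have h13 : IsCoprime ρ1 ρb :=
      (IsCoprime.pow_iff hppos hppos).mp (h12.of_mul_left_left.of_mul_right_left)
    exact (isCoprime_mul_unit_left_right v.isUnit _ _).mpr h13
  · rw [mul_pow, ← hmain, hv]
    push_cast
    ring


include hcycl in
/-- existence of a root of unity `μ = ζ ^ i` with `𝔩 ^ 2 ∣ x + μ * y`. -/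
theorem exists_root_sq_dvd [IsPrincipalIdealRing (𝓞 K)] (hp2 : p ≠ 2) {m : ℕ} (hm : 1 ≤ m)
    {x y z : 𝓞 K} {ε : (𝓞 K)ˣ} (hy : ¬ 𝔩 ∣ y)
    (h : x ^ p + y ^ p = ε * 𝔩 ^ (p * m) * z ^ p) :
    ∃ i : ℕ, 𝔩 ^ 2 ∣ x + η ^ i * y := by
  have hprim := hζ.toInteger_isPrimitiveRoot
  have hl : Prime 𝔩 := hζ.zeta_sub_one_prime'
  have hodd : Odd p := hp.out.odd_of_ne_two hp2
  have hppos : 0 < p := hp.out.pos
  have hxy : 𝔩 ∣ x + y := by
    have h1 : 𝔩 ∣ ∏ μ ∈ nthRootsFinset p (1 : 𝓞 K), (x + μ * y) := by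
      rw [← hprim.pow_add_pow_eq_prod_add_mul x y hodd, h]
      exact Dvd.dvd.mul_right (Dvd.dvd.mul_left (dvd_pow_self _ (by positivity)) _) _
    obtain ⟨μ, hμ, hdiv⟩ := (hl.dvd_finsetProd_iff _).mp h1
    have h2 : 𝔩 ∣ μ - 1 := hprim.sub_one_dvd_sub hp.out hμ (one_mem_nthRootsFinset hppos)
    have : x + y = (x + μ * y) - (μ - 1) * y := by ring
    rw [this]
    exact dvd_sub hdiv (h2.mul_right _)
  obtain ⟨t, ht⟩ := hxy
  obtain ⟨c, d, hcd⟩ := hl.coprime_iff_not_dvd.mpr hy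
  obtain ⟨n, hn⟩ := exists_int_lam_dvd_sub hζ (-(t * d))
  have hpZ : (0 : ℤ) < p := by exact_mod_cast hppos
  have hi : ((n % p).toNat : ℤ) = n % p := Int.toNat_of_nonneg (Int.emod_nonneg _ hpZ.ne')
  obtain ⟨i, hidef⟩ : ∃ i : ℕ, i = (n % p).toNat := ⟨_, rfl⟩
  rw [← hidef] at hi
  refine ⟨i, ?_⟩
  have hin : 𝔩 ∣ ((i : ℤ) : 𝓞 K) - (n : 𝓞 K) := by
    have h3 : (p : ℤ) ∣ (i : ℤ) - n := by
      rw [hi]
      exact ⟨-(n / p), by have := Int.emod_add_mul_ediv n p; linarith⟩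
    have := (zeta_sub_one_dvd_intCast_iff' p hζ).mpr h3
    simpa using this
  obtain ⟨r, hr⟩ := sq_dvd_add_pow_sub_sub 𝔩 1 i
  simp only [one_pow, mul_one, sub_add_cancel] at hr
  obtain ⟨q1, hq1⟩ := hin
  obtain ⟨q2, hq2⟩ := hn
  push_cast at hq1
  refine ⟨t * c - q2 * y + q1 * y + r * y, ?_⟩
  linear_combination ht + y * hr + 𝔩 * (-y * hq2 - t * hcd + y * hq1)

include hcycl in
/-- Kummer's descent: no solutions of the generalized second-case equation. -/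
theorem not_exists_sol [IsPrincipalIdealRing (𝓞 K)] (hp2 : p ≠ 2)
    (hkummer : ∀ u : (𝓞 K)ˣ, (∃ n : ℤ, (p : 𝓞 K) ∣ (u : 𝓞 K) - n) → ∃ v : (𝓞 K)ˣ, u = v ^ p) :
    ∀ m : ℕ, 1 ≤ m → ∀ (x y z : 𝓞 K) (ε : (𝓞 K)ˣ), ¬ 𝔩 ∣ x → ¬ 𝔩 ∣ y → ¬ 𝔩 ∣ z →
      IsCoprime x y → x ^ p + y ^ p ≠ ε * 𝔩 ^ (p * m) * z ^ p := by
  intro m
  induction m using Nat.strong_induction_on with
  | _ m ih =>
    intro hm x y z ε hx hy hz hxy h
    have hprim := hζ.toInteger_isPrimitiveRoot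
    have hl : Prime 𝔩 := hζ.zeta_sub_one_prime'
    obtain ⟨i, hi⟩ := exists_root_sq_dvd hζ hp2 hm hy h
    have hunit : IsUnit (η ^ i) := (hprim.isUnit hp.out.ne_zero).pow i
    have hy' : ¬ 𝔩 ∣ η ^ i * y := fun hd =>
      (hl.dvd_or_dvd hd).elim (fun h' => hl.not_isUnit (isUnit_of_dvd_unit h' hunit)) hy
    have hxy' : IsCoprime x (η ^ i * y) := (isCoprime_mul_unit_left_right hunit _ _).mpr hxy
    have h' : x ^ p + (η ^ i * y) ^ p = ε * 𝔩 ^ (p * m) * z ^ p := by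
      rw [mul_pow, ← pow_mul, mul_comm i p, pow_mul, hprim.pow_eq_one, one_pow, one_mul, h]
    obtain ⟨hm2, x', y', z', ε', hx', hy'', hz', hxy'', h''⟩ :=
      descent_aux hζ hp2 hkummer hm hx hy' hz hxy' h' hi
    exact ih (m - 1) (by omega) (by omega) x' y' z' ε' hx' hy'' hz' hxy'' h''

include hcycl in
/-- The second case of Fermat's last theorem for `p`, over `ℤ`, given that `𝓞 K` is a PID and
Kummer's lemma holds. -/
theorem caseII_int [IsPrincipalIdealRing (𝓞 K)] (hp2 : p ≠ 2)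
    (hkummer : ∀ u : (𝓞 K)ˣ, (∃ n : ℤ, (p : 𝓞 K) ∣ (u : 𝓞 K) - n) → ∃ v : (𝓞 K)ˣ, u = v ^ p)
    {a b c : ℤ} (hc : c ≠ 0) (ha : ¬ (p : ℤ) ∣ a) (hb : ¬ (p : ℤ) ∣ b) (hpc : (p : ℤ) ∣ c)
    (hab : IsCoprime a b) : a ^ p + b ^ p ≠ c ^ p := by
  intro h
  have hζ' := zeta_spec p ℚ K
  have hppos : 0 < p := hp.out.pos
  have hpprime : Prime (p : ℤ) := Nat.prime_iff_prime_int.mp hp.out
  have hfin : FiniteMultiplicity (p : ℤ) c :=
    Int.finiteMultiplicity_iff.mpr ⟨by simpa using hp.out.ne_one, hc⟩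
  obtain ⟨c0, hc0, hpc0⟩ := hfin.exists_eq_pow_mul_and_not_dvd
  obtain ⟨k, hk⟩ : ∃ k, k = multiplicity (p : ℤ) c := ⟨_, rfl⟩
  rw [← hk] at hc0
  have hk1 : 1 ≤ k := by
    by_contra hlt
    have hk0 : k = 0 := by omega
    rw [hk0, pow_zero, one_mul] at hc0
    exact hpc0 (hc0 ▸ hpc)
  obtain ⟨u, hu⟩ := associated_zeta_sub_one_pow_prime p hζ'
  have hp1 : 1 ≤ p - 1 := by have := hp.out.two_le; omega
  refine not_exists_sol hζ' hp2 hkummer ((p - 1) * k) (Nat.mul_pos hp1 hk1) (a : 𝓞 K) b c0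
    (u ^ (k * p)) ?_ ?_ ?_ hab.intCast ?_
  · rwa [zeta_sub_one_dvd_intCast_iff' p hζ']
  · rwa [zeta_sub_one_dvd_intCast_iff' p hζ']
  · rwa [zeta_sub_one_dvd_intCast_iff' p hζ']
  · have h1 : ((a : 𝓞 K)) ^ p + (b : 𝓞 K) ^ p = (c : 𝓞 K) ^ p := by
      exact_mod_cast congrArg (Int.cast : ℤ → 𝓞 K) h
    rw [h1, hc0]
    push_cast
    rw [← hu]
    ring

end Basics

end Fermat.Agent.S11
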