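import Mathlib

/-!
# Case I of Fermat's Last Theorem for exponent 11 (Sophie Germain, auxiliary prime 23)
-/

set_option autoImplicit false

namespace Fermat.Agent.S11

/-- The cofactor `(y ^ 11 + z ^ 11) / (y + z)`. -/
def caseIPhi (y z : ℤ) : ℤ :=
  y ^ 10 - y ^ 9 * z + y ^ 8 * z ^ 2 - y ^ 7 * z ^ 3 + y ^ 6 * z ^ 4 - y ^ 5 * z ^ 5
    + y ^ 4 * z ^ 6 - y ^ 3 * z ^ 7 + y ^ 2 * z ^ 8 - y * z ^ 9 + z ^ 10

lemma caseIPhi_mul (y z : ℤ) : (y + z) * caseIPhi y z = y ^ 11 + z ^ 11 := by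
  unfold caseIPhi; ring

lemma caseIPhi_eq (y z : ℤ) :
    caseIPhi y z = 11 * y ^ 10 + (y + z) * (-10 * y ^ 9 + 9 * y ^ 8 * z - 8 * y ^ 7 * z ^ 2
      + 7 * y ^ 6 * z ^ 3 - 6 * y ^ 5 * z ^ 4 + 5 * y ^ 4 * z ^ 5 - 4 * y ^ 3 * z ^ 6
      + 3 * y ^ 2 * z ^ 7 - 2 * y * z ^ 8 + z ^ 9) := by
  unfold caseIPhi; ring

lemma caseI_zmod_pow (t : ZMod 23) : t ^ 11 = 0 ∨ t ^ 11 = 1 ∨ t ^ 11 = -1 := by
  revert t; decide

lemma caseI_zmod_pow_eq_zero (t : ZMod 23) (h : t ^ 11 = 0) : t = 0 := by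
  revert t; decide

lemma caseI_zmod_pow_ten_eq_zero (t : ZMod 23) (h : t ^ 10 = 0) : t = 0 := by
  revert t; decide

lemma caseI_zmod_sum (u v w : ZMod 23) (h : u ^ 11 + v ^ 11 + w ^ 11 = 0) :
    u = 0 ∨ v = 0 ∨ w = 0 := by
  rcases caseI_zmod_pow u with hu | hu | hu
  · exact Or.inl (caseI_zmod_pow_eq_zero u hu)
  all_goals
    rcases caseI_zmod_pow v with hv | hv | hv
    · exact Or.inr (Or.inl (caseI_zmod_pow_eq_zero v hv))
    all_goals
      rcases caseI_zmod_pow w with hw | hw | hw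
      · exact Or.inr (Or.inr (caseI_zmod_pow_eq_zero w hw))
      all_goals
        exfalso
        rw [hu, hv, hw] at h
        revert h
        decide

/-- If `x ^ 11 + y ^ 11 + z ^ 11 = 0` with `y`, `z` coprime and `11 ∤ x`, then `y + z` and its
cofactor are both `11`-th powers. -/
lemma caseI_factor {x y z : ℤ} (h : x ^ 11 + y ^ 11 + z ^ 11 = 0) (hyz : IsCoprime y z)
    (hx : ¬ (11 : ℤ) ∣ x) : ∃ A α : ℤ, y + z = A ^ 11 ∧ caseIPhi y z = α ^ 11 := by
  have hodd : Odd 11 := by decide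
  have h11 : Prime (11 : ℤ) := by norm_num
  have hmul : (y + z) * caseIPhi y z = (-x) ^ 11 := by
    rw [caseIPhi_mul, hodd.neg_pow]; linarith
  have hcop1 : IsCoprime (y + z) y := by
    have := hyz.symm.add_mul_left_left 1
    simpa [add_comm] using this
  have hcop2 : IsCoprime (y + z) 11 := by
    rw [isCoprime_comm, h11.coprime_iff_not_dvd]
    intro hdvd
    have : (11 : ℤ) ∣ (-x) ^ 11 := hmul ▸ hdvd.mul_right _
    exact hx ((dvd_neg).1 (h11.dvd_of_dvd_pow this))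
  have hcop : IsCoprime (y + z) (caseIPhi y z) := by
    rw [caseIPhi_eq]
    exact (hcop2.mul_right hcop1.pow_right).add_mul_left_right _
  obtain ⟨⟨A, hA⟩, ⟨α, hα⟩⟩ := Int.eq_pow_of_mul_eq_pow_odd hcop hodd hmul
  exact ⟨A, α, hA, hα⟩

lemma caseI_not_dvd_of_coprime {u v : ℤ} (huv : IsCoprime u v) (hu : (23 : ℤ) ∣ u)
    (hv : (23 : ℤ) ∣ v) : False := by
  have := huv.isUnit_of_dvd' hu hv
  rw [Int.isUnit_iff] at this
  omega

/-- The core of Sophie Germain's argument: the variable divisible by `23` leads to a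
contradiction. -/
lemma caseI_aux {x y z : ℤ} (h : x ^ 11 + y ^ 11 + z ^ 11 = 0) (hxy : IsCoprime x y)
    (hyz : IsCoprime y z) (hzx : IsCoprime z x) (hx : ¬ (11 : ℤ) ∣ x) (hy : ¬ (11 : ℤ) ∣ y)
    (hz : ¬ (11 : ℤ) ∣ z) (h23 : (23 : ℤ) ∣ x) : False := by
  obtain ⟨A, α, hA, hα⟩ := caseI_factor h hyz hx
  obtain ⟨B, β, hB, -⟩ := caseI_factor (x := y) (y := z) (z := x) (by linarith) hzx hy
  obtain ⟨C, γ, hC, hγ⟩ := caseI_factor (x := z) (y := x) (z := y) (by linarith) hxy hz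
  have hx0 : (x : ZMod 23) = 0 := (ZMod.intCast_zmod_eq_zero_iff_dvd x 23).2 h23
  have hA' : (y : ZMod 23) + z = (A : ZMod 23) ^ 11 := by exact_mod_cast congrArg (Int.cast : ℤ → ZMod 23) hA
  have hB' : (z : ZMod 23) = (B : ZMod 23) ^ 11 := by
    have := congrArg (Int.cast : ℤ → ZMod 23) hB
    push_cast at this
    rw [hx0, add_zero] at this
    exact this
  have hC' : (y : ZMod 23) = (C : ZMod 23) ^ 11 := by
    have := congrArg (Int.cast : ℤ → ZMod 23) hC
    push_cast at this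
    rw [hx0, zero_add] at this
    exact this
  have hsum : (B : ZMod 23) ^ 11 + (C : ZMod 23) ^ 11 + (-(A : ZMod 23)) ^ 11 = 0 := by
    rw [(by decide : Odd 11).neg_pow, ← hA', ← hB', ← hC']; ring
  have hy0 : (y : ZMod 23) ≠ 0 := by
    intro hy0
    exact caseI_not_dvd_of_coprime hxy h23 ((ZMod.intCast_zmod_eq_zero_iff_dvd y 23).1 hy0)
  rcases caseI_zmod_sum _ _ _ hsum with hB0 | hC0 | hA0
  · rw [hB0] at hB'
    have : (z : ZMod 23) = 0 := by rw [hB']; decide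
    exact caseI_not_dvd_of_coprime hzx ((ZMod.intCast_zmod_eq_zero_iff_dvd z 23).1 this) h23
  · rw [hC0] at hC'
    exact hy0 (by rw [hC']; decide)
  · have hA0' : (A : ZMod 23) = 0 := by simpa using hA0
    rw [hA0'] at hA'
    have hzy : (z : ZMod 23) = -(y : ZMod 23) := by
      have : (y : ZMod 23) + z = 0 := by rw [hA']; decide
      linear_combination this
    have hα' : (α : ZMod 23) ^ 11 = 11 * (y : ZMod 23) ^ 10 := by
      have := congrArg (Int.cast : ℤ → ZMod 23) hα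
      unfold caseIPhi at this
      push_cast at this
      rw [← this, hzy]; ring
    have hγ' : (γ : ZMod 23) ^ 11 = (y : ZMod 23) ^ 10 := by
      have := congrArg (Int.cast : ℤ → ZMod 23) hγ
      unfold caseIPhi at this
      push_cast at this
      rw [← this, hx0]; ring
    have hy10 : (y : ZMod 23) ^ 10 ≠ 0 := fun h0 ↦ hy0 (caseI_zmod_pow_ten_eq_zero _ h0)
    rcases caseI_zmod_pow (γ : ZMod 23) with h1 | h1 | h1
    · exact hy10 (by rw [← hγ', h1])
    · rw [← hγ', h1] at hα'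
      rcases caseI_zmod_pow (α : ZMod 23) with h2 | h2 | h2 <;>
      · rw [h2] at hα'
        revert hα'
        decide
    · rw [← hγ', h1] at hα'
      rcases caseI_zmod_pow (α : ZMod 23) with h2 | h2 | h2 <;>
      · rw [h2] at hα'
        revert hα'
        decide

/-- Case I for exponent `11`: no solutions with `11 ∤ a * b * c` (Sophie Germain with `q = 23`). -/
theorem caseI_eleven {a b c : ℤ} (hab : IsCoprime a b) (h : ¬ (11 : ℤ) ∣ a * b * c) :
    a ^ 11 + b ^ 11 ≠ c ^ 11 := by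
  intro hF
  have hodd : Odd 11 := by decide
  have h11 : Prime (11 : ℤ) := by norm_num
  have ha : ¬ (11 : ℤ) ∣ a := fun hd ↦ h ((hd.mul_right b).mul_right c)
  have hb : ¬ (11 : ℤ) ∣ b := fun hd ↦ h ((hd.mul_left a).mul_right c)
  have hc : ¬ (11 : ℤ) ∣ -c := fun hd ↦ h ((dvd_neg.1 hd).mul_left (a * b))
  have hsum : a ^ 11 + b ^ 11 + (-c) ^ 11 = 0 := by rw [hodd.neg_pow, hF]; ring
  have hcb : IsCoprime c b := by
    have h1 : IsCoprime (a ^ 11 + b * b ^ 10) b := (hab.pow_left).add_mul_left_left _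
    have h2 : a ^ 11 + b * b ^ 10 = c ^ 11 := by rw [← hF]; ring
    rw [h2] at h1
    exact (IsCoprime.pow_left_iff (by norm_num)).1 h1
  have hca : IsCoprime c a := by
    have h1 : IsCoprime (b ^ 11 + a * a ^ 10) a := (hab.symm.pow_left).add_mul_left_left _
    have h2 : b ^ 11 + a * a ^ 10 = c ^ 11 := by rw [← hF]; ring
    rw [h2] at h1
    exact (IsCoprime.pow_left_iff (by norm_num)).1 h1
  have hbc' : IsCoprime b (-c) := hcb.symm.neg_right
  have hca' : IsCoprime (-c) a := hca.neg_left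
  have hz : (a : ZMod 23) ^ 11 + (b : ZMod 23) ^ 11 + ((-c : ℤ) : ZMod 23) ^ 11 = 0 := by
    exact_mod_cast congrArg (Int.cast : ℤ → ZMod 23) hsum
  rcases caseI_zmod_sum _ _ _ hz with h0 | h0 | h0
  · exact caseI_aux hsum hab hbc' hca' ha hb hc ((ZMod.intCast_zmod_eq_zero_iff_dvd a 23).1 h0)
  · exact caseI_aux (x := b) (y := -c) (z := a) (by linarith) hbc' hca' hab hb hc ha
      ((ZMod.intCast_zmod_eq_zero_iff_dvd b 23).1 h0)
  · exact caseI_aux (x := -c) (y := a) (z := b) (by linarith) hca' hab hbc' hc ha hb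
      ((ZMod.intCast_zmod_eq_zero_iff_dvd (-c) 23).1 h0)

end Fermat.Agent.S11
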