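import Fermat.Agent.S11.KummerCyc

set_option autoImplicit false

namespace Fermat.Agent.S11

open NumberField

lemma witness_of_data {O : Type*} [CommRing O] [IsDomain O] {π : O} {p : ℕ} (hC : CycData O π p)
    {k : ℕ} (hk1 : 1 ≤ k) (hk : k + 1 ≤ p - 1) (U V R Q : O) (m c : ℤ) (hUV : U * V = 1)
    (hexp : U - (m + c * π ^ k) = (p : O) * R + π ^ (k + 1) * Q) (hc : ¬ (p : ℤ) ∣ c) :
    ∃ η : Oˣ, η ∈ intCongSubgroup π k ∧ η ∉ intCongSubgroup π (k + 1) := by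
  refine ⟨Units.mkOfMulEqOne U V hUV, hC.witness hk1 hk _ m c ?_ hc⟩
  show π ^ (k + 1) ∣ U - (m + c * π ^ k)
  rw [hexp]
  exact dvd_add (Dvd.dvd.mul_right (hC.pow_dvd_p hk) _) (Dvd.intro _ rfl)

/-- The explicit units of `ℤ[ζ₁₁]` at levels `1, 2, 4, 6, 8`. -/
lemma witnesses_eleven {O : Type*} [CommRing O] [IsDomain O] {z : O} (hC : CycData O (z - 1) 11)
    (hz : 1 + z + z ^ 2 + z ^ 3 + z ^ 4 + z ^ 5 + z ^ 6 + z ^ 7 + z ^ 8 + z ^ 9 + z ^ 10 = 0) :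
    ∀ k ∈ ({1, 2, 4, 6, 8} : Finset ℕ), 1 ≤ k ∧ k + 1 ≤ 11 - 1 ∧
      ∃ η : Oˣ, η ∈ intCongSubgroup (z - 1) k ∧ η ∉ intCongSubgroup (z - 1) (k + 1) := by
  intro k hk
  simp only [Finset.mem_insert, Finset.mem_singleton] at hk
  rcases hk with rfl | rfl | rfl | rfl | rfl
  · refine ⟨by norm_num, by norm_num, ?_⟩
    refine witness_of_data hC (by norm_num) (by norm_num)
      (z)
      (-1 - z - z ^ 2 - z ^ 3 - z ^ 4 - z ^ 5 - z ^ 6 - z ^ 7 - z ^ 8 - z ^ 9)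
      (0)
      (0)
      (1) (1) ?_ ?_ (by norm_num)
    · linear_combination (-1) * hz
    · push_cast; ring
  · refine ⟨by norm_num, by norm_num, ?_⟩
    refine witness_of_data hC (by norm_num) (by norm_num)
      (z ^ 5 + z ^ 6)
      (-1 - z ^ 2 - z ^ 4 - z ^ 7 - z ^ 9)
      ((z - 1))
      (30 + 20 * (z - 1) + 7 * (z - 1) ^ 2 + (z - 1) ^ 3)
      (2) (25) ?_ ?_ (by norm_num)
    · linear_combination (-1 + z - z ^ 5) * hz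
    · push_cast; ring
  · refine ⟨by norm_num, by norm_num, ?_⟩
    refine witness_of_data hC (by norm_num) (by norm_num)
      (z ^ 4 + 2 * z ^ 5 + 2 * z ^ 6 + z ^ 7)
      (z ^ 2 - z ^ 3 + z ^ 4 + z ^ 7 - z ^ 8 + z ^ 9)
      (3 * (z - 1) + 7 * (z - 1) ^ 2 + 9 * (z - 1) ^ 3)
      (35 + 9 * (z - 1) + (z - 1) ^ 2)
      (6) (76) ?_ ?_ (by norm_num)
    · linear_combination (-1 + z + z ^ 6) * hz
    · push_cast; ring
  · refine ⟨by norm_num, by norm_num, ?_⟩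
    refine witness_of_data hC (by norm_num) (by norm_num)
      (2 - 6 * z ^ 2 - 14 * z ^ 3 - 21 * z ^ 4 - 25 * z ^ 5 - 25 * z ^ 6 - 21 * z ^ 7 - 14 * z ^ 8 - 6 * z ^ 9)
      (-5 - 4 * z ^ 2 - 2 * z ^ 3 - 3 * z ^ 4 - 2 * z ^ 5 - 2 * z ^ 6 - 3 * z ^ 7 - 2 * z ^ 8 - 4 * z ^ 9)
      (-66 * (z - 1) - 168 * (z - 1) ^ 2 - 261 * (z - 1) ^ 3 - 272 * (z - 1) ^ 4 - 196 * (z - 1) ^ 5)
      (-349 - 68 * (z - 1) - 6 * (z - 1) ^ 2)
      (-130) (-1068) ?_ ?_ (by norm_num)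
    · linear_combination (-11 + 11 * z + 22 * z ^ 2 + 44 * z ^ 3 + 57 * z ^ 4 + 66 * z ^ 5 + 62 * z ^ 6 + 44 * z ^ 7 + 24 * z ^ 8) * hz
    · push_cast; ring
  · refine ⟨by norm_num, by norm_num, ?_⟩
    refine witness_of_data hC (by norm_num) (by norm_num)
      (9 - 4 * z ^ 2 + 4 * z ^ 3 + 2 * z ^ 4 + z ^ 5 + z ^ 6 + 2 * z ^ 7 + 4 * z ^ 8 - 4 * z ^ 9)
      (-108 + 289 * z ^ 2 + 668 * z ^ 3 + 1016 * z ^ 4 + 1223 * z ^ 5 + 1223 * z ^ 6 + 1016 * z ^ 7 + 668 * z ^ 8 + 289 * z ^ 9)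
      (3 * (z - 1) + 5 * (z - 1) ^ 2 - 12 * (z - 1) ^ 4 - 21 * (z - 1) ^ 5 - 19 * (z - 1) ^ 6 - 10 * (z - 1) ^ 7)
      (-4)
      (15) (-32) ?_ ?_ (by norm_num)
    · linear_combination (-973 + 973 * z + 3033 * z ^ 2 + 2547 * z ^ 3 + 2192 * z ^ 4 + 1611 * z ^ 5 + 702 * z ^ 6 - 360 * z ^ 7 - 1156 * z ^ 8) * hz
    · push_cast; ring

/-- **Kummer's lemma for `p = 11`**: a unit of `ℤ[ζ₁₁]` congruent to a rational integer modulo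
`(ζ - 1) ^ 10` (equivalently, modulo `11`) is an `11`-th power. -/
theorem kummer_eleven {K : Type*} [Field K] [NumberField K] [IsCyclotomicExtension {11} ℚ K]
    {ζ : K} (hζ : IsPrimitiveRoot ζ 11) (u : (𝓞 K)ˣ) (n : ℤ)
    (hu : (hζ.toInteger - 1) ^ 10 ∣ (u : 𝓞 K) - n) : ∃ v : (𝓞 K)ˣ, u = v ^ 11 := by
  haveI : Fact (Nat.Prime 11) := ⟨by norm_num⟩
  have hC : CycData (𝓞 K) (hζ.toInteger - 1) 11 := cycData hζ
  have hz : (1 : 𝓞 K) + hζ.toInteger + hζ.toInteger ^ 2 + hζ.toInteger ^ 3 + hζ.toInteger ^ 4 +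
      hζ.toInteger ^ 5 + hζ.toInteger ^ 6 + hζ.toInteger ^ 7 + hζ.toInteger ^ 8 +
      hζ.toInteger ^ 9 + hζ.toInteger ^ 10 = 0 := by
    have h := hζ.toInteger_isPrimitiveRoot.geom_sum_eq_zero (by norm_num)
    simp only [Finset.sum_range_succ, Finset.sum_range_zero, pow_zero, pow_one, zero_add] at h
    exact h
  have hidx := units_index hζ (by norm_num : 2 < 11)
  have hcard : ({1, 2, 4, 6, 8} : Finset ℕ).card = (11 - 1) / 2 := by decide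
  exact hC.kummer {1, 2, 4, 6, 8} (witnesses_eleven hC hz) hidx.1 (hcard ▸ hidx.2) u n hu

end Fermat.Agent.S11
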