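import Mathlib

/-!
# The ring of integers of `ℚ(ζ₁₁)` is a PID

Minkowski bound `< 59`; primes `p ≤ 58` other than `11` and `23` have residue degree
`orderOf (p : ZMod 11)` with `p ^ f > 58`; the prime over `11` is `(ζ - 1)`; a prime over `23`
is generated by `1 + ζ + ζ ^ 3` (kernel of `ζ ↦ 4` into `ZMod 23`).
-/

set_option autoImplicit false

namespace Fermat.Agent.S11

open NumberField Polynomial InfinitePlace Real Ideal

/-- Numeric Minkowski bound for `ℚ(ζ₁₁)`. -/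
theorem pid_minkowski_num :
    (4 / π) ^ 5 * (((10 : ℕ).factorial : ℝ) / (10 : ℝ) ^ 10 * √((11 : ℝ) ^ 9)) < 59 := by
  have hpi : (3.1415 : ℝ) < π := pi_gt_d4
  have hs : √((11 : ℝ) ^ 9) < 48559 := by
    rw [Real.sqrt_lt' (by norm_num)]
    norm_num
  have h1 : (4 / π : ℝ) < 4 / 3.1415 := by
    apply div_lt_div_of_pos_left <;> norm_num
    linarith
  have h2 : (4 / π : ℝ) ^ 5 < (4 / 3.1415) ^ 5 := by
    apply pow_lt_pow_left₀ h1 (by positivity) (by norm_num)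
  have hfact : ((10 : ℕ).factorial : ℝ) = 3628800 := by
    norm_num [Nat.factorial]
  rw [hfact]
  have h3 : (0 : ℝ) ≤ √((11 : ℝ) ^ 9) := Real.sqrt_nonneg _
  have h4 : (0 : ℝ) < (4 / π) ^ 5 := by positivity
  calc (4 / π) ^ 5 * ((3628800 : ℝ) / (10 : ℝ) ^ 10 * √((11 : ℝ) ^ 9))
      ≤ (4 / π) ^ 5 * ((3628800 : ℝ) / (10 : ℝ) ^ 10 * 48559) := by
        gcongr
    _ < (4 / 3.1415) ^ 5 * ((3628800 : ℝ) / (10 : ℝ) ^ 10 * 48559) := by
        gcongr
    _ < 59 := by norm_num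

/-- For a prime `p ≤ 58` other than `11` and `23`, `p ^ (order of p mod 11) > 58`. -/
theorem pid_pow_orderOf_gt (p : ℕ) (hp : p.Prime) (hp58 : p ≤ 58) (h11 : p ≠ 11)
    (h23 : p ≠ 23) : 58 < p ^ orderOf (p : ZMod 11) := by
  have key : ∀ (x : ZMod 11) (n : ℕ), 0 < n → x ^ n = 1 → (∀ m < n, 0 < m → x ^ m ≠ 1) →
      orderOf x = n := fun x n hn h1 h2 => (orderOf_eq_iff hn).mpr ⟨h1, h2⟩
  interval_cases p
  all_goals first
    | (exfalso; revert hp; norm_num; done)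
    | (exfalso; exact h11 rfl)
    | (exfalso; exact h23 rfl)
    | (rw [key _ 10 (by norm_num) (by decide) (by decide)]; norm_num)
    | (rw [key _ 5 (by norm_num) (by decide) (by decide)]; norm_num)
    | (rw [key _ 2 (by norm_num) (by decide) (by decide)]; norm_num)

section

variable (K : Type*) [Field K] [NumberField K] [IsCyclotomicExtension {11} ℚ K]

/-- The floor of the Minkowski bound of `ℚ(ζ₁₁)` is at most `58`. -/
theorem pid_minkowski_floor_le :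
    ⌊(4 / π) ^ nrComplexPlaces K *
          (((Module.finrank ℚ K).factorial : ℝ) / (Module.finrank ℚ K : ℝ) ^ Module.finrank ℚ K *
            √|(discr K : ℝ)|)⌋₊ ≤ 58 := by
  have : Fact (Nat.Prime 11) := ⟨by norm_num⟩
  rw [IsCyclotomicExtension.Rat.discr_prime 11 K, IsCyclotomicExtension.finrank (n := 11) K
    (cyclotomic.irreducible_rat (by simp)),
    IsCyclotomicExtension.Rat.nrComplexPlaces_eq_totient_div_two 11,
    Nat.totient_prime (by norm_num : Nat.Prime 11)]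
  have h := pid_minkowski_num
  have e : |(((-1 : ℤ) ^ ((11 - 1) / 2) * ((11 : ℕ) : ℤ) ^ (11 - 2) : ℤ) : ℝ)| = (11 : ℝ) ^ 9 := by
    norm_num
  rw [e]
  apply Nat.lt_succ_iff.mp
  rw [Nat.floor_lt (by positivity)]
  norm_num at h ⊢
  exact h

/-- A principal prime ideal over `23` in `ℤ[ζ₁₁]`: generated by `1 + ζ + ζ³`. -/
theorem pid_exists_principal_over_23 :
    ∃ P ∈ primesOver (span {((23 : ℕ) : ℤ)}) (𝓞 K), Submodule.IsPrincipal P := by
  have h4 : (1 + 4 + 4 ^ 2 + 4 ^ 3 + 4 ^ 4 + 4 ^ 5 + 4 ^ 6 + 4 ^ 7 + 4 ^ 8 + 4 ^ 9 + 4 ^ 10 :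
      ZMod 23) = 0 := by decide
  have h4' : (1 + 4 + 4 ^ 3 : ZMod 23) = 0 := by decide
  have : Fact (Nat.Prime 11) := ⟨by norm_num⟩
  have : Fact (Nat.Prime 23) := ⟨by norm_num⟩
  have hζ := IsCyclotomicExtension.zeta_spec 11 ℚ K
  have hζ' : IsPrimitiveRoot hζ.toInteger 11 := hζ.toInteger_isPrimitiveRoot
  -- the power basis
  let pb := hζ.integralPowerBasis
  have hgen : pb.gen = hζ.toInteger := hζ.integralPowerBasis_gen
  have hmin : minpoly ℤ pb.gen = cyclotomic 11 ℤ := by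
    rw [hgen, cyclotomic_eq_minpoly hζ (by norm_num)]
    exact (RingOfIntegers.minpoly_coe hζ.toInteger).symm
  have hroot : aeval (4 : ZMod 23) (minpoly ℤ pb.gen) = 0 := by
    rw [hmin, cyclotomic_prime]
    simpa [Finset.sum_range_succ] using h4
  let f : 𝓞 K →ₐ[ℤ] ZMod 23 := pb.lift 4 hroot
  have hfζ : f hζ.toInteger = 4 := by
    rw [← hgen]; exact pb.lift_gen 4 hroot
  generalize hζdef : hζ.toInteger = ζ at *
  have hsum : 1 + ζ + ζ ^ 2 + ζ ^ 3 + ζ ^ 4 + ζ ^ 5 + ζ ^ 6 + ζ ^ 7 + ζ ^ 8 + ζ ^ 9 + ζ ^ 10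
      = 0 := by
    have := hζ'.geom_sum_eq_zero (by norm_num : 1 < 11)
    simpa [Finset.sum_range_succ] using this
  -- the generator
  set α : 𝓞 K := 1 + ζ + ζ ^ 3 with hα
  have hβ : α * (-2 - 14 * ζ - 17 * ζ ^ 2 - 12 * ζ ^ 3 - 5 * ζ ^ 4 - 9 * ζ ^ 5 - 10 * ζ ^ 6
      - 16 * ζ ^ 7 - 6 * ζ ^ 8 - 15 * ζ ^ 9) = 23 := by
    rw [hα]
    linear_combination (-25 + 9 * ζ - 15 * ζ ^ 2) * hsum
  have hγ : α * (1 + 3 * ζ + 3 * ζ ^ 2 + 2 * ζ ^ 3 + 1 * ζ ^ 4 + 2 * ζ ^ 5 + 2 * ζ ^ 6 + 3 * ζ ^ 7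
      + 1 * ζ ^ 8 + 3 * ζ ^ 9) = ζ - 4 := by
    rw [hα]
    linear_combination (5 - 2 * ζ + 3 * ζ ^ 2) * hsum
  have hfα : f α = 0 := by
    rw [hα]
    simp only [map_add, map_one, map_pow, hfζ]
    exact h4'
  have hker : RingHom.ker f.toRingHom = span {α} := by
    apply le_antisymm
    · intro x hx
      rw [RingHom.mem_ker] at hx
      obtain ⟨g, hg⟩ := pb.exists_eq_aeval' x
      rw [hgen] at hg
      have hx' : f x = 0 := hx
      rw [hg, ← aeval_algHom_apply, hfζ] at hx'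
      have h1 : aeval (4 : ZMod 23) g = ((g.eval 4 : ℤ) : ZMod 23) := by
        have := eval_intCast_map (Int.castRingHom (ZMod 23)) g 4
        rw [← eval_map_algebraMap]
        simpa using this
      rw [h1, ZMod.intCast_zmod_eq_zero_iff_dvd] at hx'
      have h2 : ζ - 4 ∣ x - ((g.eval 4 : ℤ) : 𝓞 K) := by
        have h3 := sub_dvd_eval_sub ζ 4 (g.map (algebraMap ℤ (𝓞 K)))
        have h4 : eval (4 : 𝓞 K) (g.map (algebraMap ℤ (𝓞 K))) = ((g.eval 4 : ℤ) : 𝓞 K) := by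
          have := eval_intCast_map (algebraMap ℤ (𝓞 K)) g 4
          simpa using this
        rw [h4, eval_map_algebraMap] at h3
        rw [hg]
        exact h3
      rw [mem_span_singleton]
      have h5 : α ∣ ((g.eval 4 : ℤ) : 𝓞 K) := by
        obtain ⟨k, hk⟩ := hx'
        rw [hk]
        push_cast
        exact Dvd.dvd.mul_right ⟨_, hβ.symm⟩ _
      have h6 : α ∣ x - ((g.eval 4 : ℤ) : 𝓞 K) := dvd_trans ⟨_, hγ.symm⟩ h2
      have := dvd_add h6 h5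
      simpa using this
    · rw [span_singleton_le_iff_mem, RingHom.mem_ker]
      exact hfα
  refine ⟨RingHom.ker f.toRingHom, ⟨RingHom.ker_isPrime _, ?_⟩, ?_⟩
  · rw [liesOver_iff]
    ext n
    rw [under_def, mem_comap, RingHom.mem_ker, mem_span_singleton]
    have : f.toRingHom (algebraMap ℤ (𝓞 K) n) = (n : ZMod 23) := by
      simp
    rw [this, ZMod.intCast_zmod_eq_zero_iff_dvd]
  · rw [hker]
    exact ⟨⟨α, rfl⟩⟩

/-- `𝓞 K` is a principal ideal domain for `K = ℚ(ζ₁₁)`. -/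
theorem pid_eleven :
    IsPrincipalIdealRing (𝓞 K) := by
  have hf11 : Fact (Nat.Prime 11) := ⟨by norm_num⟩
  have hgal : IsGalois ℚ K := IsCyclotomicExtension.isGalois {11} ℚ K
  apply RingOfIntegers.isPrincipalIdealRing_of_isPrincipal_of_lt_or_isPrincipal_of_mem_primesOver_of_mem_Icc
  intro p hp hpp
  have hM := pid_minkowski_floor_le K
  have hp58 : p ≤ 58 := (Finset.mem_Icc.mp hp).2.trans hM
  by_cases h11 : p = 11
  · subst h11
    obtain ⟨⟨P, hP1, hP2⟩⟩ := (span {((11 : ℕ) : ℤ)}).nonempty_primesOver (S := 𝓞 K)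
    refine ⟨P, ⟨hP1, hP2⟩, Or.inr ?_⟩
    rw [IsCyclotomicExtension.Rat.eq_span_zeta_sub_one_of_liesOver' 11 K
      (IsCyclotomicExtension.zeta_spec 11 ℚ K) P]
    exact ⟨⟨_, rfl⟩⟩
  by_cases h23 : p = 23
  · subst h23
    obtain ⟨P, hP, hPP⟩ := pid_exists_principal_over_23 K
    exact ⟨P, hP, Or.inr hPP⟩
  · have hpf : Fact (Nat.Prime p) := ⟨hpp⟩
    obtain ⟨⟨P, hP1, hP2⟩⟩ := (span {(p : ℤ)}).nonempty_primesOver (S := 𝓞 K)
    refine ⟨P, ⟨hP1, hP2⟩, Or.inl ?_⟩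
    have hnd : ¬ p ∣ 11 := by
      intro h
      exact h11 ((Nat.prime_dvd_prime_iff_eq hpp (by norm_num)).mp h)
    rw [IsCyclotomicExtension.Rat.inertiaDeg_eq_of_not_dvd p K P hnd]
    exact lt_of_le_of_lt hM (pid_pow_orderOf_gt p hpp hp58 h11 h23)

end

end Fermat.Agent.S11
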