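import Mathlib

/-!
# Reduction of Fermat's Last Theorem for an odd prime exponent to Case I and Case II
-/

set_option autoImplicit false

namespace Fermat.Agent.S11

section

variable {p : ℕ}

lemma p_dvd_b_of_dvd_a_of_gcd_eq_one_of_case2 (hp : p.Prime) (hodd : Odd p) {a b c : ℤ}
    (ha : a ≠ 0)
    (Hgcd : Finset.gcd {a, b, c} id = 1) (h3a : (p : ℤ) ∣ a) (HF : a ^ p + b ^ p + c ^ p = 0)
    (H : ∀ a b c : ℤ, c ≠ 0 → ¬ (p : ℤ) ∣ a → ¬ (p : ℤ) ∣ b → (p : ℤ) ∣ c → IsCoprime a b →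
      a ^ p + b ^ p ≠ c ^ p) :
    (p : ℤ) ∣ b := by
  have hpZ : Prime (p : ℤ) := Nat.prime_iff_prime_int.mp hp
  have hbc : IsCoprime (-b) (-c) := by
    refine IsCoprime.neg_neg ?_
    rw [add_comm (a ^ p), add_assoc, add_comm (a ^ p), ← add_assoc] at HF
    refine isCoprime_of_gcd_eq_one_of_FLT ?_ HF
    convert Hgcd using 2
    rw [Finset.pair_comm, Finset.insert_comm]
  by_contra! h3b
  by_cases h3c : (p : ℤ) ∣ c
  · apply h3b
    rw [add_assoc, add_comm (b ^ p), ← add_assoc] at HF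
    exact dvd_c_of_prime_of_dvd_a_of_dvd_b_of_FLT hpZ h3a h3c HF
  · refine H (-b) (-c) a ha (by simp [h3b]) (by simp [h3c]) h3a hbc ?_
    rw [add_eq_zero_iff_eq_neg, ← hodd.neg_pow] at HF
    rw [← HF, hodd.neg_pow]
    ring

open Finset in
lemma flt_of_dvd_a_of_gcd_eq_one_of_case2 (hp : p.Prime) (hodd : Odd p) {a b c : ℤ} (ha : a ≠ 0)
    (h3a : (p : ℤ) ∣ a) (Hgcd : Finset.gcd {a, b, c} id = 1)
    (H : ∀ a b c : ℤ, c ≠ 0 → ¬ (p : ℤ) ∣ a → ¬ (p : ℤ) ∣ b → (p : ℤ) ∣ c → IsCoprime a b →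
      a ^ p + b ^ p ≠ c ^ p) :
    a ^ p + b ^ p + c ^ p ≠ 0 := by
  intro HF
  have hpZ : Prime (p : ℤ) := Nat.prime_iff_prime_int.mp hp
  apply hpZ.not_dvd_one
  rw [← Hgcd]
  refine dvd_gcd (fun x hx ↦ ?_)
  simp only [mem_insert, mem_singleton] at hx
  have h3b : (p : ℤ) ∣ b := by
    refine p_dvd_b_of_dvd_a_of_gcd_eq_one_of_case2 hp hodd ha ?_ h3a HF H
    simp only [← Hgcd, gcd_insert, gcd_singleton, id_eq, ← Int.abs_eq_normalize]
  rcases hx with hx | hx | hx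
  · exact hx ▸ h3a
  · exact hx ▸ h3b
  · simpa [hx] using dvd_c_of_prime_of_dvd_a_of_dvd_b_of_FLT hpZ h3a h3b HF

open Finset Int in
/-- To prove Fermat's Last Theorem for an odd prime exponent `p`, it is enough to treat
Case I (`p ∤ a * b * c`, with `a`, `b` coprime) and Case II in the normalised form
`p ∤ a`, `p ∤ b`, `p ∣ c`, `a` and `b` coprime. -/
theorem flt_of_caseI_of_caseII (hp : p.Prime) (hodd : Odd p)
    (H1 : ∀ a b c : ℤ, IsCoprime a b → ¬ (p : ℤ) ∣ a * b * c → a ^ p + b ^ p ≠ c ^ p)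
    (H : ∀ a b c : ℤ, c ≠ 0 → ¬ (p : ℤ) ∣ a → ¬ (p : ℤ) ∣ b → (p : ℤ) ∣ c → IsCoprime a b →
      a ^ p + b ^ p ≠ c ^ p) :
    FermatLastTheoremFor p := by
  have hpZ : Prime (p : ℤ) := Nat.prime_iff_prime_int.mp hp
  rw [fermatLastTheoremFor_iff_int]
  refine fermatLastTheoremWith_of_fermatLastTheoremWith_coprime (fun a b c ha hb hc Hgcd hF ↦ ?_)
  by_cases h1 : (p : ℤ) ∣ a * b * c
  swap
  · refine H1 a b c ?_ h1 hF
    have hF' : a ^ p + b ^ p + (-c) ^ p = 0 := by rw [hodd.neg_pow, hF]; ring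
    refine isCoprime_of_gcd_eq_one_of_FLT ?_ hF'
    simp only [← Hgcd, gcd_insert, gcd_singleton, id_eq, ← abs_eq_normalize, abs_neg]
  rw [hpZ.dvd_mul, hpZ.dvd_mul] at h1
  rw [← sub_eq_zero, sub_eq_add_neg, ← hodd.neg_pow] at hF
  rcases h1 with (h3a | h3b) | h3c
  · refine flt_of_dvd_a_of_gcd_eq_one_of_case2 hp hodd ha h3a ?_ H hF
    simp only [← Hgcd, gcd_insert, gcd_singleton, id_eq, ← abs_eq_normalize, abs_neg]
  · rw [add_comm (a ^ p)] at hF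
    refine flt_of_dvd_a_of_gcd_eq_one_of_case2 hp hodd hb h3b ?_ H hF
    simp only [← Hgcd, insert_comm, gcd_insert, gcd_singleton, id_eq, ← abs_eq_normalize, abs_neg]
  · rw [add_comm _ ((-c) ^ p), ← add_assoc] at hF
    refine flt_of_dvd_a_of_gcd_eq_one_of_case2 hp hodd (neg_ne_zero.2 hc) (by simp [h3c])
      ?_ H hF
    rw [Finset.insert_comm (-c), Finset.pair_comm (-c) b]
    simp only [← Hgcd, gcd_insert, gcd_singleton, id_eq, ← abs_eq_normalize, abs_neg]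

end

end Fermat.Agent.S11
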