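import Mathlib
import Fermat.Agent.S11.CaseOne
import Fermat.Agent.S11.PID
import Fermat.Agent.S11.Kummer11
import Fermat.Agent.S11.CaseII
import Fermat.Agent.S11.Reduction

/-!
# Fermat's Last Theorem for exponent 11
-/

set_option autoImplicit false

namespace Fermat.Agent.S11

open NumberField

/-- Fermat's Last Theorem for exponent `11`. -/
theorem flt_eleven : FermatLastTheoremFor 11 := by
  have hp : Nat.Prime 11 := by norm_num
  haveI : Fact (Nat.Prime 11) := ⟨hp⟩
  refine flt_of_caseI_of_caseII hp (by decide) (fun a b c hab h ↦ caseI_eleven hab h) ?_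
  haveI : IsCyclotomicExtension {11} ℚ (CyclotomicField 11 ℚ) :=
    CyclotomicField.isCyclotomicExtension 11 ℚ
  have hζ : IsPrimitiveRoot (IsCyclotomicExtension.zeta 11 ℚ (CyclotomicField 11 ℚ)) 11 :=
    IsCyclotomicExtension.zeta_spec 11 ℚ (CyclotomicField 11 ℚ)
  haveI : IsPrincipalIdealRing (𝓞 (CyclotomicField 11 ℚ)) := pid_eleven (CyclotomicField 11 ℚ)
  have hkummer : ∀ u : (𝓞 (CyclotomicField 11 ℚ))ˣ,
      (∃ n : ℤ, ((11 : ℕ) : 𝓞 (CyclotomicField 11 ℚ)) ∣ (u : 𝓞 (CyclotomicField 11 ℚ)) - n) →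
        ∃ v : (𝓞 (CyclotomicField 11 ℚ))ˣ, u = v ^ 11 := by
    rintro u ⟨n, hn⟩
    refine kummer_eleven hζ u n (dvd_trans ?_ hn)
    exact (IsCyclotomicExtension.Rat.associated_zeta_sub_one_pow_prime 11 hζ).dvd
  intro a b c hc ha hb hpc hab
  exact caseII_int (K := CyclotomicField 11 ℚ) (by decide) hkummer hc ha hb hpc hab

end Fermat.Agent.S11
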