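import Mathlib

set_option autoImplicit false

namespace Fermat.Agent.S11

section IntCong

variable {O : Type*} [CommRing O]

/-- Units which, together with their inverse, are congruent to a rational integer mod `π ^ k`. -/
def intCongSubgroup (π : O) (k : ℕ) : Subgroup Oˣ where
  carrier := {u | (∃ n : ℤ, π ^ k ∣ (u : O) - n) ∧ (∃ n : ℤ, π ^ k ∣ ((u⁻¹ : Oˣ) : O) - n)}
  mul_mem' := by
    rintro a b ⟨⟨n, hn⟩, ⟨n', hn'⟩⟩ ⟨⟨m, hm⟩, ⟨m', hm'⟩⟩
    refine ⟨⟨n * m, ?_⟩, ⟨n' * m', ?_⟩⟩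
    · have : ((a * b : Oˣ) : O) - ((n * m : ℤ) : O) = ((a : O) - n) * b + n * ((b : O) - m) := by
        push_cast; ring
      rw [this]
      exact dvd_add (Dvd.dvd.mul_right hn _) (Dvd.dvd.mul_left hm _)
    · have : (((a * b)⁻¹ : Oˣ) : O) - ((n' * m' : ℤ) : O) =
          (((a⁻¹ : Oˣ) : O) - n') * ((b⁻¹ : Oˣ) : O) + n' * (((b⁻¹ : Oˣ) : O) - m') := by
        rw [mul_inv]; push_cast; ring
      rw [this]
      exact dvd_add (Dvd.dvd.mul_right hn' _) (Dvd.dvd.mul_left hm' _)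
  one_mem' := ⟨⟨1, by simp⟩, ⟨1, by simp⟩⟩
  inv_mem' := by
    rintro a ⟨h1, h2⟩
    exact ⟨h2, by simpa using h1⟩

lemma mem_intCongSubgroup {π : O} {k : ℕ} {u : Oˣ} :
    u ∈ intCongSubgroup π k ↔
      (∃ n : ℤ, π ^ k ∣ (u : O) - n) ∧ (∃ n : ℤ, π ^ k ∣ ((u⁻¹ : Oˣ) : O) - n) := Iff.rfl

lemma intCongSubgroup_anti (π : O) {j k : ℕ} (h : j ≤ k) :
    intCongSubgroup π k ≤ intCongSubgroup π j := by
  rintro u ⟨⟨n, hn⟩, ⟨n', hn'⟩⟩
  exact ⟨⟨n, (pow_dvd_pow π h).trans hn⟩, ⟨n', (pow_dvd_pow π h).trans hn'⟩⟩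

/-- Hypotheses on a "cyclotomic-like" prime element `π` over the rational prime `p`. -/
structure CycData (O : Type*) [CommRing O] (π : O) (p : ℕ) : Prop where
  prime : p.Prime
  dvd : π ^ (p - 1) ∣ (p : O)
  int_dvd : ∀ n : ℤ, π ∣ (n : O) → (p : ℤ) ∣ n
  exists_int : ∀ x : O, ∃ n : ℤ, π ∣ x - n
  ne_zero : π ≠ 0

namespace CycData

variable {π : O} {p : ℕ} (h : CycData O π p)

include h

lemma pow_dvd_p {k : ℕ} (hk : k ≤ p - 1) : π ^ k ∣ (p : O) :=
  (pow_dvd_pow π hk).trans h.dvd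

lemma pi_dvd_p : π ∣ (p : O) := by
  have := h.pow_dvd_p (k := 1) (by have := h.prime.two_le; omega)
  simpa using this

lemma dvd_int_iff (n : ℤ) : π ∣ (n : O) ↔ (p : ℤ) ∣ n := by
  refine ⟨h.int_dvd n, ?_⟩
  rintro ⟨d, rfl⟩
  push_cast
  exact Dvd.dvd.mul_right h.pi_dvd_p _

lemma not_dvd_unit (u : Oˣ) : ¬ π ∣ (u : O) := by
  intro hu
  have h1 : π ∣ ((1 : ℤ) : O) := by
    have : π ∣ (u : O) * ((u⁻¹ : Oˣ) : O) := Dvd.dvd.mul_right hu _
    simpa using this
  have h2 := h.int_dvd 1 h1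
  have h3 : (p : ℤ) = 1 ∨ (p : ℤ) = -1 := Int.isUnit_iff.mp (isUnit_of_dvd_one h2)
  have := h.prime.two_le
  omega

lemma inv_cong {k : ℕ} (hk : k ≤ p - 1) (u : Oˣ) (n : ℤ) (hu : π ^ k ∣ (u : O) - n) :
    ∃ n' : ℤ, π ^ k ∣ ((u⁻¹ : Oˣ) : O) - n' := by
  rcases Nat.eq_zero_or_pos k with rfl | hk0
  · exact ⟨0, by simp⟩
  have hpi : π ∣ (u : O) - n := (dvd_pow_self π hk0.ne').trans hu
  have hn : ¬ (p : ℤ) ∣ n := by
    intro hpn
    have : π ∣ (n : O) := (h.dvd_int_iff n).mpr hpn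
    exact h.not_dvd_unit u (by simpa using dvd_add hpi this)
  have hcop : IsCoprime (p : ℤ) n :=
    (Nat.prime_iff_prime_int.mp h.prime).coprime_iff_not_dvd.mpr hn
  obtain ⟨a, b, hab⟩ := hcop
  refine ⟨b, ?_⟩
  have hab' : (a : O) * (p : O) + (b : O) * (n : O) = 1 := by
    have := congrArg (Int.cast : ℤ → O) hab
    push_cast at this
    exact this
  have key : ((u⁻¹ : Oˣ) : O) - (b : O) =
      ((u⁻¹ : Oˣ) : O) * ((a : O) * (p : O) - (b : O) * ((u : O) - n)) := by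
    have hu1 : ((u⁻¹ : Oˣ) : O) * (u : O) = 1 := by simp
    linear_combination (b : O) * hu1 + (-((u⁻¹ : Oˣ) : O)) * hab'
  rw [key]
  exact Dvd.dvd.mul_left (dvd_sub (Dvd.dvd.mul_left (h.pow_dvd_p hk) _) (Dvd.dvd.mul_left hu _)) _

lemma mem_iff {k : ℕ} (hk : k ≤ p - 1) (u : Oˣ) :
    u ∈ intCongSubgroup π k ↔ ∃ n : ℤ, π ^ k ∣ (u : O) - n := by
  refine ⟨fun hu => hu.1, fun hu => ⟨hu, ?_⟩⟩
  obtain ⟨n, hn⟩ := hu
  exact h.inv_cong hk u n hn

lemma pow_mem (v : Oˣ) : v ^ p ∈ intCongSubgroup π (p - 1) := by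
  rw [h.mem_iff le_rfl]
  obtain ⟨n, t, ht⟩ := h.exists_int (v : O)
  obtain ⟨r, hr⟩ := exists_add_pow_prime_eq h.prime (n : O) (π * t)
  refine ⟨n ^ p, ?_⟩
  have hv : (v : O) = n + π * t := by linear_combination ht
  have hp1 : p = (p - 1) + 1 := by have := h.prime.two_le; omega
  have e1 : ((v ^ p : Oˣ) : O) - ((n ^ p : ℤ) : O) =
      (π * t) ^ p + (p : O) * n * (π * t) * r := by
    push_cast
    rw [hv, hr]; ring
  rw [e1]
  refine dvd_add ?_ ?_
  · rw [mul_pow]
    refine Dvd.dvd.mul_right ?_ _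
    exact pow_dvd_pow π (Nat.sub_le p 1)
  · exact Dvd.dvd.mul_right (Dvd.dvd.mul_right (Dvd.dvd.mul_right h.dvd _) _) _

lemma witness [IsDomain O] {k : ℕ} (hk1 : 1 ≤ k) (hk : k + 1 ≤ p - 1) (η : Oˣ) (m c : ℤ)
    (hη : π ^ (k + 1) ∣ (η : O) - (m + c * π ^ k)) (hc : ¬ (p : ℤ) ∣ c) :
    η ∈ intCongSubgroup π k ∧ η ∉ intCongSubgroup π (k + 1) := by
  constructor
  · rw [h.mem_iff (by omega)]
    refine ⟨m, ?_⟩
    have : (η : O) - m = ((η : O) - (m + c * π ^ k)) + c * π ^ k := by ring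
    rw [this]
    exact dvd_add ((pow_dvd_pow π (Nat.le_succ k)).trans hη) (Dvd.intro_left _ rfl)
  · intro hmem
    obtain ⟨⟨n, hn⟩, -⟩ := hmem
    have h1 : π ^ (k + 1) ∣ ((m - n : ℤ) : O) + c * π ^ k := by
      have := dvd_sub hn hη
      have e : (η : O) - n - ((η : O) - (m + c * π ^ k)) = ((m - n : ℤ) : O) + c * π ^ k := by
        push_cast; ring
      rwa [e] at this
    have h2 : π ∣ ((m - n : ℤ) : O) := by
      have h3 : π ∣ ((m - n : ℤ) : O) + c * π ^ k := (dvd_pow_self π (Nat.succ_ne_zero k)).trans h1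
      have h4 : π ∣ (c : O) * π ^ k := Dvd.dvd.mul_left (dvd_pow_self π (by omega)) _
      exact (dvd_add_left h4).mp h3
    have h5 : (p : ℤ) ∣ m - n := h.int_dvd _ h2
    have h6 : π ^ (k + 1) ∣ ((m - n : ℤ) : O) := by
      obtain ⟨d, hd⟩ := h5
      rw [hd]; push_cast
      exact Dvd.dvd.mul_right (h.pow_dvd_p hk) _
    have h7 : π ^ (k + 1) ∣ (c : O) * π ^ k := (dvd_add_right h6).mp h1
    have h8 : π ∣ (c : O) := by
      rw [pow_succ, mul_comm (c : O)] at h7
      exact (mul_dvd_mul_iff_left (pow_ne_zero k h.ne_zero)).mp h7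
    exact hc (h.int_dvd c h8)

lemma step {k : ℕ} (hk : k + 1 ≤ p - 1) (η : Oˣ)
    (hη : η ∈ intCongSubgroup π k) (hη' : η ∉ intCongSubgroup π (k + 1)) :
    p ∣ (intCongSubgroup π (k + 1)).relIndex (intCongSubgroup π k) := by
  have : Fact p.Prime := ⟨h.prime⟩
  let H := (intCongSubgroup π (k + 1)).subgroupOf (intCongSubgroup π k)
  let q : intCongSubgroup π k ⧸ H := QuotientGroup.mk ⟨η, hη⟩
  have hq1 : q ^ p = 1 := by
    show (QuotientGroup.mk ⟨η, hη⟩ : intCongSubgroup π k ⧸ H) ^ p = 1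
    rw [← QuotientGroup.mk_pow, QuotientGroup.eq_one_iff, Subgroup.mem_subgroupOf]
    exact intCongSubgroup_anti π hk (h.pow_mem η)
  have hq2 : q ≠ 1 := by
    show (QuotientGroup.mk ⟨η, hη⟩ : intCongSubgroup π k ⧸ H) ≠ 1
    rw [Ne, QuotientGroup.eq_one_iff, Subgroup.mem_subgroupOf]
    exact hη'
  have hord := orderOf_eq_prime hq1 hq2
  have hdvd := orderOf_dvd_natCard q
  rw [hord] at hdvd
  exact hdvd

lemma pow_card_dvd_index (S : Finset ℕ)
    (hS : ∀ k ∈ S, 1 ≤ k ∧ k + 1 ≤ p - 1 ∧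
      ∃ η : Oˣ, η ∈ intCongSubgroup π k ∧ η ∉ intCongSubgroup π (k + 1)) :
    p ^ S.card ∣ (intCongSubgroup π (p - 1)).index := by
  have key : ∀ j, 1 ≤ j → j ≤ p - 1 →
      p ^ (S.filter (· < j)).card ∣ (intCongSubgroup π j).index := by
    intro j hj1
    induction j, hj1 using Nat.le_induction with
    | base =>
      intro _
      have : S.filter (· < 1) = ∅ := by
        apply Finset.filter_false_of_mem
        intro k hk
        have := (hS k hk).1
        omega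
      rw [this, Finset.card_empty, pow_zero]
      exact one_dvd _
    | succ j hj ih =>
      intro hj'
      have ih' := ih (by omega)
      have hmul := Subgroup.relIndex_mul_index (intCongSubgroup_anti π (Nat.le_succ j))
      rw [← hmul]
      by_cases hjS : j ∈ S
      · obtain ⟨-, h2, η, hη, hη'⟩ := hS j hjS
        have hf : S.filter (· < j + 1) = insert j (S.filter (· < j)) := by
          ext x
          simp only [Finset.mem_filter, Finset.mem_insert]
          constructor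
          · rintro ⟨hx, hlt⟩
            rcases Nat.lt_succ_iff_lt_or_eq.mp hlt with hlt | rfl
            · exact Or.inr ⟨hx, hlt⟩
            · exact Or.inl rfl
          · rintro (rfl | ⟨hx, hlt⟩)
            · exact ⟨hjS, Nat.lt_succ_self _⟩
            · exact ⟨hx, Nat.lt_succ_of_lt hlt⟩
        rw [hf, Finset.card_insert_of_notMem (by simp), pow_succ, mul_comm]
        exact mul_dvd_mul (h.step h2 η hη hη') ih'
      · have hf : S.filter (· < j + 1) = S.filter (· < j) := by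
          apply Finset.filter_congr
          intro x hx
          constructor
          · intro hlt
            rcases Nat.lt_succ_iff_lt_or_eq.mp hlt with hlt | rfl
            · exact hlt
            · exact absurd hx hjS
          · intro hlt
            exact Nat.lt_succ_of_lt hlt
        rw [hf]
        exact Dvd.dvd.mul_left ih' _
  have h1 := key (p - 1) (by have := h.prime.two_le; omega) le_rfl
  have hf : S.filter (· < p - 1) = S := by
    apply Finset.filter_true_of_mem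
    intro k hk
    have := hS k hk
    omega
  rwa [hf] at h1

theorem le_range_pow (S : Finset ℕ)
    (hS : ∀ k ∈ S, 1 ≤ k ∧ k + 1 ≤ p - 1 ∧
      ∃ η : Oˣ, η ∈ intCongSubgroup π k ∧ η ∉ intCongSubgroup π (k + 1))
    (hfin : ((powMonoidHom p : Oˣ →* Oˣ).range).index ≠ 0)
    (hle : ((powMonoidHom p : Oˣ →* Oˣ).range).index ≤ p ^ S.card) :
    intCongSubgroup π (p - 1) ≤ (powMonoidHom p : Oˣ →* Oˣ).range := by
  have hPW : (powMonoidHom p : Oˣ →* Oˣ).range ≤ intCongSubgroup π (p - 1) := by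
    rintro x ⟨v, rfl⟩
    exact h.pow_mem v
  have hmul := Subgroup.relIndex_mul_index hPW
  have hdvd := h.pow_card_dvd_index S hS
  have hW0 : (intCongSubgroup π (p - 1)).index ≠ 0 := by
    intro h0
    rw [h0, mul_zero] at hmul
    exact hfin hmul.symm
  have hWge : p ^ S.card ≤ (intCongSubgroup π (p - 1)).index :=
    Nat.le_of_dvd (Nat.pos_of_ne_zero hW0) hdvd
  have hrel : ((powMonoidHom p : Oˣ →* Oˣ).range).relIndex (intCongSubgroup π (p - 1)) = 1 := by
    have hr0 : ((powMonoidHom p : Oˣ →* Oˣ).range).relIndex (intCongSubgroup π (p - 1)) ≠ 0 := by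
      intro h0
      rw [h0, zero_mul] at hmul
      exact hfin hmul.symm
    by_contra hne
    have h2 : 2 ≤ ((powMonoidHom p : Oˣ →* Oˣ).range).relIndex (intCongSubgroup π (p - 1)) := by
      omega
    have : 2 * (intCongSubgroup π (p - 1)).index ≤ (intCongSubgroup π (p - 1)).index := by
      calc 2 * (intCongSubgroup π (p - 1)).index
          ≤ ((powMonoidHom p : Oˣ →* Oˣ).range).relIndex (intCongSubgroup π (p - 1)) *
              (intCongSubgroup π (p - 1)).index := Nat.mul_le_mul_right _ h2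
        _ = ((powMonoidHom p : Oˣ →* Oˣ).range).index := hmul
        _ ≤ p ^ S.card := hle
        _ ≤ (intCongSubgroup π (p - 1)).index := hWge
    have := Nat.pos_of_ne_zero hW0
    omega
  exact Subgroup.relIndex_eq_one.mp hrel

/-- Abstract Kummer lemma: a unit congruent to an integer mod `π ^ (p - 1)` is a `p`-th power. -/
theorem kummer (S : Finset ℕ)
    (hS : ∀ k ∈ S, 1 ≤ k ∧ k + 1 ≤ p - 1 ∧
      ∃ η : Oˣ, η ∈ intCongSubgroup π k ∧ η ∉ intCongSubgroup π (k + 1))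
    (hfin : ((powMonoidHom p : Oˣ →* Oˣ).range).index ≠ 0)
    (hle : ((powMonoidHom p : Oˣ →* Oˣ).range).index ≤ p ^ S.card)
    (u : Oˣ) (n : ℤ) (hu : π ^ (p - 1) ∣ (u : O) - n) : ∃ v : Oˣ, u = v ^ p := by
  have hmem : u ∈ intCongSubgroup π (p - 1) := (h.mem_iff le_rfl u).mpr ⟨n, hu⟩
  obtain ⟨v, hv⟩ := h.le_range_pow S hS hfin hle hmem
  exact ⟨v, hv.symm⟩

end CycData

/-- In a commutative group generated by a finite family, the subgroup of `p`-th powers has
index at most `p ^ (size of the family)`. -/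
lemma index_range_pow_le {G : Type*} [CommGroup G] {ι : Type*} [Fintype ι] (p : ℕ) [NeZero p]
    (g : ι → G) (hg : ∀ x : G, ∃ e : ι → ℤ, x = ∏ i, g i ^ e i) :
    ((powMonoidHom p : G →* G).range).index ≠ 0 ∧
      ((powMonoidHom p : G →* G).range).index ≤ p ^ Fintype.card ι := by
  classical
  let H : Subgroup G := (powMonoidHom p : G →* G).range
  let ψ : (ι → ZMod p) → G ⧸ H := fun e => QuotientGroup.mk (∏ i, g i ^ ((e i).val : ℤ))
  have hψ : Function.Surjective ψ := by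
    intro q
    obtain ⟨x, rfl⟩ := QuotientGroup.mk_surjective q
    obtain ⟨e, rfl⟩ := hg x
    refine ⟨fun i => (e i : ZMod p), ?_⟩
    show (QuotientGroup.mk (∏ i, g i ^ (((e i : ZMod p)).val : ℤ)) : G ⧸ H) = _
    rw [QuotientGroup.eq]
    have hd : ∀ i, ∃ d : ℤ, e i - (((e i : ZMod p)).val : ℤ) = p * d := by
      intro i
      have : (p : ℤ) ∣ e i - (((e i : ZMod p)).val : ℤ) := by
        rw [← ZMod.intCast_zmod_eq_zero_iff_dvd]
        simp
      exact this
    choose d hd using hd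
    refine ⟨∏ i, g i ^ d i, ?_⟩
    simp only [powMonoidHom_apply]
    rw [← Finset.prod_inv_distrib, ← Finset.prod_mul_distrib, ← Finset.prod_pow]
    refine Finset.prod_congr rfl fun i _ => ?_
    rw [← zpow_natCast, ← zpow_mul, ← zpow_neg, ← zpow_add, mul_comm, ← hd i]
    congr 1
    ring
  have hfinite : Finite (G ⧸ H) := Finite.of_surjective ψ hψ
  have hcard : Nat.card (G ⧸ H) ≤ Nat.card (ι → ZMod p) := Nat.card_le_card_of_surjective ψ hψ
  have hcard2 : Nat.card (ι → ZMod p) = p ^ Fintype.card ι := by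
    rw [Nat.card_eq_fintype_card, Fintype.card_fun, ZMod.card]
  refine ⟨?_, ?_⟩
  · show H.index ≠ 0
    rw [Subgroup.index]
    exact Nat.card_pos.ne'
  · show H.index ≤ _
    rw [Subgroup.index]
    exact hcard2 ▸ hcard

end IntCong

end Fermat.Agent.S11
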