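import Fermat.Agent.S11.KummerAbstract

set_option autoImplicit false

namespace Fermat.Agent.S11

open NumberField

section Cyc

variable {K : Type*} [Field K] [NumberField K] {p : ℕ} [hp : Fact p.Prime]
  [IsCyclotomicExtension {p} ℚ K] {ζ : K} (hζ : IsPrimitiveRoot ζ p)

include hζ in
lemma exists_int_zeta_sub_one_dvd (x : 𝓞 K) : ∃ n : ℤ, hζ.toInteger - 1 ∣ x - n := by
  have htop : Algebra.adjoin ℤ {hζ.toInteger} = ⊤ := by
    have := hζ.integralPowerBasis.adjoin_gen_eq_top
    rwa [hζ.integralPowerBasis_gen] at this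
  have hx : x ∈ Algebra.adjoin ℤ {hζ.toInteger} := by rw [htop]; trivial
  induction hx using Algebra.adjoin_induction with
  | mem x hx =>
    obtain rfl := Set.mem_singleton_iff.mp hx
    exact ⟨1, by simp⟩
  | algebraMap r => exact ⟨r, by simp⟩
  | add x y _ _ hx hy =>
    obtain ⟨n, hn⟩ := hx
    obtain ⟨m, hm⟩ := hy
    refine ⟨n + m, ?_⟩
    have : x + y - ((n + m : ℤ) : 𝓞 K) = (x - n) + (y - m) := by push_cast; ring
    rw [this]
    exact dvd_add hn hm
  | mul x y _ _ hx hy =>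
    obtain ⟨n, hn⟩ := hx
    obtain ⟨m, hm⟩ := hy
    refine ⟨n * m, ?_⟩
    have : x * y - ((n * m : ℤ) : 𝓞 K) = (x - n) * y + n * (y - m) := by push_cast; ring
    rw [this]
    exact dvd_add (Dvd.dvd.mul_right hn _) (Dvd.dvd.mul_left hm _)

lemma cycData : CycData (𝓞 K) (hζ.toInteger - 1) p where
  prime := hp.out
  dvd := (IsCyclotomicExtension.Rat.associated_zeta_sub_one_pow_prime p hζ).dvd
  int_dvd := fun _ hn => (IsCyclotomicExtension.Rat.zeta_sub_one_dvd_intCast_iff' p hζ).mp hn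
  exists_int := exists_int_zeta_sub_one_dvd hζ
  ne_zero := (hζ.zeta_sub_one_prime').ne_zero

include hζ in
lemma rank_add_one (hp2 : 2 < p) : Units.rank K + 1 = (p - 1) / 2 := by
  have h1 : Units.rank K = Fintype.card (InfinitePlace K) - 1 := rfl
  have h2 := InfinitePlace.card_eq_nrRealPlaces_add_nrComplexPlaces (K := K)
  have h3 := IsCyclotomicExtension.Rat.nrRealPlaces_eq_zero (n := p) K hp2
  have h4 := IsCyclotomicExtension.Rat.nrComplexPlaces_eq_totient_div_two p K
  rw [Nat.totient_prime hp.out] at h4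
  rw [h3, h4, zero_add] at h2
  have h5 : 1 ≤ (p - 1) / 2 := by omega
  omega

include hζ in
lemma units_index (hp2 : 2 < p) :
    ((powMonoidHom p : (𝓞 K)ˣ →* (𝓞 K)ˣ).range).index ≠ 0 ∧
      ((powMonoidHom p : (𝓞 K)ˣ →* (𝓞 K)ˣ).range).index ≤ p ^ ((p - 1) / 2) := by
  haveI : NeZero p := ⟨hp.out.ne_zero⟩
  obtain ⟨t, ht⟩ := IsCyclic.exists_generator (α := Units.torsion K)
  let g : Option (Fin (Units.rank K)) → (𝓞 K)ˣ := fun o => o.elim (t : (𝓞 K)ˣ) (Units.fundSystem K)
  have hg : ∀ x : (𝓞 K)ˣ, ∃ e : Option (Fin (Units.rank K)) → ℤ, x = ∏ i, g i ^ e i := by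
    intro x
    obtain ⟨⟨τ, e⟩, hx, -⟩ := Units.exist_unique_eq_mul_prod K x
    obtain ⟨k, hk⟩ := Subgroup.mem_zpowers_iff.mp (ht τ)
    refine ⟨fun o => o.elim k e, ?_⟩
    rw [Fintype.prod_option]
    simp only [g, Option.elim_none, Option.elim_some]
    rw [hx]
    congr 1
    rw [← hk]
    simp
  have key := index_range_pow_le p g hg
  have hcard : Fintype.card (Option (Fin (Units.rank K))) = (p - 1) / 2 := by
    rw [Fintype.card_option, Fintype.card_fin]
    exact rank_add_one hζ hp2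
  rw [hcard] at key
  exact key

end Cyc

end Fermat.Agent.S11
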